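import Mathlib.NumberTheory.ModularForms.QExpansion
import Mathlib.Analysis.Complex.HasPrimitives
import Mathlib.Analysis.Calculus.MeanValue

set_option autoImplicit false

/-!
# Decaying periodic primitives on the upper half plane

For a holomorphic function `f : ℍ → ℂ` which is periodic and zero at `i∞` we construct the
(unique) primitive with the same properties, through the `q`-disc.
-/

namespace Fermat.Agent.H20

open Complex Filter Topology Function
open UpperHalfPlane hiding I
open scoped Manifold Real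

/-- `F` is a holomorphic primitive of `f` on the upper half plane. -/
def IsPrim (F f : ℍ → ℂ) : Prop := ∀ τ : ℍ, HasDerivAt (F ∘ ofComplex) (f τ) (τ : ℂ)

theorem IsPrim.mdifferentiable {F f : ℍ → ℂ} (h : IsPrim F f) : MDifferentiable 𝓘(ℂ) 𝓘(ℂ) F := by
  rw [UpperHalfPlane.mdifferentiable_iff]
  intro z hz
  exact (h ⟨z, hz⟩).differentiableAt.differentiableWithinAt

theorem IsPrim.add {F f G g : ℍ → ℂ} (hF : IsPrim F f) (hG : IsPrim G g) :
    IsPrim (F + G) (f + g) := fun τ => (hF τ).add (hG τ)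

theorem IsPrim.sub {F f G g : ℍ → ℂ} (hF : IsPrim F f) (hG : IsPrim G g) :
    IsPrim (F - G) (f - g) := fun τ => (hF τ).sub (hG τ)

theorem IsPrim.const_smul {F f : ℍ → ℂ} (hF : IsPrim F f) (c : ℂ) :
    IsPrim (c • F) (c • f) := fun τ => (hF τ).const_smul c

theorem IsPrim.neg {F f : ℍ → ℂ} (hF : IsPrim F f) : IsPrim (-F) (-f) := fun τ => (hF τ).neg

theorem isPrim_zero : IsPrim 0 0 := fun τ => by
  have : ((0 : ℍ → ℂ) ∘ ofComplex) = fun _ => (0 : ℂ) := rfl
  rw [this]
  exact hasDerivAt_const _ _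

theorem IsPrim.sum {ι : Type*} (s : Finset ι) {F f : ι → ℍ → ℂ} (h : ∀ i ∈ s, IsPrim (F i) (f i)) :
    IsPrim (∑ i ∈ s, F i) (∑ i ∈ s, f i) := by
  classical
  induction s using Finset.induction_on with
  | empty => simpa using isPrim_zero
  | insert a s ha ih =>
    rw [Finset.sum_insert ha, Finset.sum_insert ha]
    exact (h a (Finset.mem_insert_self a s)).add
      (ih fun i hi => h i (Finset.mem_insert_of_mem hi))

theorem IsPrim.congr_right {F f g : ℍ → ℂ} (hF : IsPrim F f) (h : ∀ τ, f τ = g τ) : IsPrim F g :=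
  fun τ => h τ ▸ hF τ

/-- A function on `ℍ` with vanishing derivative is constant. -/
theorem IsPrim.eq_of_zero {F : ℍ → ℂ} (hF : IsPrim F 0) (z w : ℍ) : F z = F w := by
  have hconv : Convex ℝ upperHalfPlaneSet := by
    have : upperHalfPlaneSet = Complex.im ⁻¹' (Set.Ioi (0 : ℝ)) := rfl
    rw [this]
    exact (convex_Ioi (0 : ℝ)).is_linear_preimage Complex.imLm.isLinear
  have hd : DifferentiableOn ℂ (F ∘ ofComplex) upperHalfPlaneSet := fun x hx =>
    (hF ⟨x, hx⟩).differentiableAt.differentiableWithinAt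
  have h0 : Set.EqOn (deriv (F ∘ ofComplex)) 0 upperHalfPlaneSet := fun x hx =>
    (hF ⟨x, hx⟩).deriv
  have := isOpen_upperHalfPlaneSet.is_const_of_deriv_eq_zero hconv.isPreconnected hd h0
    z.im_pos w.im_pos
  simpa using this

/-- Two primitives of the same function differ by a constant. -/
theorem IsPrim.sub_eq_sub {F G f : ℍ → ℂ} (hF : IsPrim F f) (hG : IsPrim G f) (z w : ℍ) :
    F z - G z = F w - G w := by
  have h : IsPrim (F - G) 0 := by
    have := hF.sub hG
    rwa [sub_self] at this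
  exact h.eq_of_zero z w

/-- `f` is holomorphic on `ℍ`, periodic with period `h` and zero at `i∞`. -/
structure IsNiceOf (h : ℝ) (f : ℍ → ℂ) : Prop where
  pos : 0 < h
  mdiff : MDifferentiable 𝓘(ℂ) 𝓘(ℂ) f
  periodic : Periodic (f ∘ ofComplex) h
  zero : IsZeroAtImInfty f

theorem IsNiceOf.bdd {h : ℝ} {f : ℍ → ℂ} (hf : IsNiceOf h f) : IsBoundedAtImInfty f :=
  hf.zero.boundedAtFilter

theorem isNiceOf_zero {h : ℝ} (hh : 0 < h) : IsNiceOf h 0 where
  pos := hh
  mdiff := mdifferentiable_const
  periodic := fun _ => rfl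
  zero := zero_zeroAtFilter _

theorem IsNiceOf.add {h : ℝ} {f g : ℍ → ℂ} (hf : IsNiceOf h f) (hg : IsNiceOf h g) :
    IsNiceOf h (f + g) where
  pos := hf.pos
  mdiff := hf.mdiff.add hg.mdiff
  periodic := fun z => by
    have h1 := hf.periodic z
    have h2 := hg.periodic z
    simp only [comp_apply, Pi.add_apply] at h1 h2 ⊢
    rw [h1, h2]
  zero := hf.zero.add hg.zero

theorem IsNiceOf.const_smul {h : ℝ} {f : ℍ → ℂ} (hf : IsNiceOf h f) (c : ℂ) :
    IsNiceOf h (c • f) where
  pos := hf.pos
  mdiff := hf.mdiff.const_smul c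
  periodic := fun z => by
    have h1 := hf.periodic z
    simp only [comp_apply, Pi.smul_apply] at h1 ⊢
    rw [h1]
  zero := hf.zero.smul c

theorem qParam_add_period {h : ℝ} (hh : h ≠ 0) (z : ℂ) :
    Periodic.qParam h (z + h) = Periodic.qParam h z := by
  have h1 : (h : ℂ) ≠ 0 := by exact_mod_cast hh
  simp only [Periodic.qParam]
  have : 2 * (π : ℂ) * I * (z + h) / h = 2 * π * I * z / h + 2 * π * I := by
    field_simp
  rw [this, Complex.exp_add, Complex.exp_two_pi_mul_I, mul_one]

/-- Existence of the decaying periodic primitive. -/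
theorem IsNiceOf.exists_prim {h : ℝ} {f : ℍ → ℂ} (hf : IsNiceOf h f) :
    ∃ F : ℍ → ℂ, IsNiceOf h F ∧ IsPrim F f := by
  have hh := hf.pos
  set g : ℂ → ℂ := cuspFunction h f with hg
  have hgd : DifferentiableOn ℂ g (Metric.ball 0 1) :=
    differentiableOn_cuspFunction_ball hh hf.periodic hf.mdiff hf.bdd
  have hg0 : g 0 = 0 := hf.zero.cuspFunction_apply_zero hh
  have hball : Metric.ball (0 : ℂ) 1 ∈ 𝓝 (0 : ℂ) := Metric.ball_mem_nhds _ one_pos
  have hφd : DifferentiableOn ℂ (dslope g 0) (Metric.ball 0 1) :=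
    (differentiableOn_dslope hball).mpr hgd
  obtain ⟨Φ₀, hΦ₀⟩ := hφd.isExactOn_ball
  set Φ : ℂ → ℂ := fun q => Φ₀ q - Φ₀ 0 with hΦdef
  have hΦ : ∀ q ∈ Metric.ball (0 : ℂ) 1, HasDerivAt Φ (dslope g 0 q) q := fun q hq =>
    (hΦ₀ q hq).sub_const _
  have hΦ0 : Φ 0 = 0 := by simp [hΦdef]
  have hq_mem : ∀ z : ℂ, 0 < z.im → Periodic.qParam h z ∈ Metric.ball (0 : ℂ) 1 := fun z hz => by
    rw [mem_ball_zero_iff]
    exact Periodic.norm_qParam_lt_one hh hz
  set c : ℂ := (h : ℂ) / (2 * π * I) with hc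
  have hc' : c * (2 * π * I / h) = 1 := by
    have h1 : (h : ℂ) ≠ 0 := by exact_mod_cast hh.ne'
    have h2 : (2 * π * I : ℂ) ≠ 0 := by
      simp [Real.pi_ne_zero, I_ne_zero]
    rw [hc]
    field_simp
  refine ⟨fun τ => c * Φ (Periodic.qParam h τ), ⟨hh, ?_, ?_, ?_⟩, ?_⟩
  · -- holomorphic
    rw [UpperHalfPlane.mdifferentiable_iff]
    intro z hz
    have h1 : DifferentiableAt ℂ (fun w : ℂ => c * Φ (Periodic.qParam h w)) z :=
      ((hΦ _ (hq_mem z hz)).differentiableAt.comp z
        (Periodic.differentiable_qParam z)).const_mul c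
    refine (h1.congr_of_eventuallyEq ?_).differentiableWithinAt
    filter_upwards [isOpen_upperHalfPlaneSet.mem_nhds hz] with w hw
    simp [comp_apply, ofComplex_apply_of_im_pos hw]
  · -- periodic
    intro z
    by_cases hz : 0 < z.im
    · have hz' : 0 < (z + h).im := by simpa using hz
      simp only [comp_apply, ofComplex_apply_of_im_pos hz, ofComplex_apply_of_im_pos hz']
      have : Periodic.qParam h (z + h) = Periodic.qParam h z := qParam_add_period hh.ne' z
      simp [this]
    · have hz' : (z + h).im ≤ 0 := by simpa using not_lt.mp hz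
      simp only [comp_apply, ofComplex_apply_of_im_nonpos hz',
        ofComplex_apply_of_im_nonpos (not_lt.mp hz)]
  · -- zero at infinity
    have hcont : ContinuousAt Φ 0 := (hΦ 0 (Metric.mem_ball_self one_pos)).continuousAt
    have h1 : Tendsto (fun τ : ℍ => Φ (Periodic.qParam h τ)) atImInfty (𝓝 (Φ 0)) :=
      hcont.tendsto.comp (qParam_tendsto_atImInfty hh)
    rw [hΦ0] at h1
    have h2 := h1.const_mul c
    rw [mul_zero] at h2
    exact h2
  · -- primitive
    intro τ
    have hτ := τ.im_pos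
    have hq := hq_mem τ hτ
    have hqne : Periodic.qParam h (τ : ℂ) ≠ 0 := Periodic.qParam_ne_zero _
    have hqd : HasDerivAt (Periodic.qParam h) (2 * π * I / h * Periodic.qParam h τ) (τ : ℂ) := by
      have h1 : HasDerivAt (fun z : ℂ => 2 * π * I * z / h) (2 * π * I / h) (τ : ℂ) := by
        have := ((hasDerivAt_id (τ : ℂ)).const_mul (2 * π * I : ℂ)).div_const (h : ℂ)
        simpa using this
      have h2 := h1.cexp
      have h3 : (fun z : ℂ => cexp (2 * π * I * z / h)) = Periodic.qParam h := by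
        funext z; rfl
      rw [h3] at h2
      have h4 : cexp (2 * π * I * (τ : ℂ) / h) * (2 * π * I / h)
          = 2 * π * I / h * Periodic.qParam h τ := by
        rw [mul_comm]; rfl
      rw [h4] at h2
      exact h2
    have h1 : HasDerivAt (fun w : ℂ => c * Φ (Periodic.qParam h w))
        (c * (dslope g 0 (Periodic.qParam h τ) * (2 * π * I / h * Periodic.qParam h τ)))
        (τ : ℂ) := ((hΦ _ hq).comp (τ : ℂ) hqd).const_mul c
    have hval : c * (dslope g 0 (Periodic.qParam h τ) * (2 * π * I / h * Periodic.qParam h τ))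
        = f τ := by
      rw [dslope_of_ne _ hqne, slope_def_field, hg0, sub_zero, sub_zero]
      have hgq : g (Periodic.qParam h τ) = f τ := eq_cuspFunction τ hh.ne' hf.periodic
      rw [hgq]
      have : c * (f τ / Periodic.qParam h τ * (2 * π * I / h * Periodic.qParam h τ))
          = (c * (2 * π * I / h)) * f τ := by
        field_simp
      rw [this, hc', one_mul]
    rw [hval] at h1
    refine h1.congr_of_eventuallyEq ?_
    filter_upwards [isOpen_upperHalfPlaneSet.mem_nhds hτ] with w hw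
    simp [comp_apply, ofComplex_apply_of_im_pos hw]

end Fermat.Agent.H20
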