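import Mathlib.Analysis.Complex.AbsMax
import Mathlib.NumberTheory.Modular
import Mathlib.NumberTheory.ModularForms.QExpansion
import Mathlib.NumberTheory.ModularForms.CongruenceSubgroups
import Mathlib.GroupTheory.Index
import Fermat.Agent.H20.QPrim

set_option autoImplicit false

/-!
# A maximum principle on `Γ \ ℍ*`

Let `Γ ≤ SL(2, ℤ)` be a subgroup of finite index and `G : ℍ → ℂ` a holomorphic function such that
`G ∘ γ - G` is a purely imaginary constant for every `γ ∈ Γ` and such that `G ∘ δ` has a limit at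
`i∞` for every `δ ∈ SL(2, ℤ)`.  Then `G` is constant.
-/

namespace Fermat.Agent.H20

open Complex Filter Topology Function Metric
open UpperHalfPlane hiding I
open scoped Manifold Real MatrixGroups

/-- A finite set of representatives for the right cosets of a subgroup of finite index. -/
theorem exists_finset_reps {G : Type*} [Group G] (Γ : Subgroup G) [Γ.FiniteIndex] :
    ∃ R : Finset G, ∀ δ : G, ∃ γ ∈ Γ, ∃ ρ ∈ R, δ = γ * ρ := by
  classical
  have hfin : Finite (G ⧸ Γ) := Subgroup.finite_quotient_of_finiteIndex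
  let _inst : Fintype (G ⧸ Γ) := Fintype.ofFinite _
  refine ⟨Finset.univ.image fun q : G ⧸ Γ => (Quotient.out q)⁻¹, fun δ => ?_⟩
  obtain ⟨h, hh⟩ := QuotientGroup.mk_out_eq_mul Γ δ⁻¹
  refine ⟨(h : G), h.2, (Quotient.out ((δ⁻¹ : G) : G ⧸ Γ))⁻¹,
    Finset.mem_image.mpr ⟨_, Finset.mem_univ _, rfl⟩, ?_⟩
  rw [hh]
  group

theorem mdiff_comp_SL_smul {G : ℍ → ℂ} (hG : MDiff G) (δ : SL(2, ℤ)) :
    MDiff (fun z : ℍ => G (δ • z)) := by
  have h1 : MDiff (fun τ : ℍ => ((δ : GL (Fin 2) ℝ)) • τ) :=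
    mdifferentiable_smul (by simp)
  exact hG.comp h1

theorem tendsto_vadd_atImInfty (x : ℝ) :
    Tendsto (fun z : ℍ => x +ᵥ z) atImInfty atImInfty := by
  rw [atImInfty, tendsto_comap_iff]
  have : (UpperHalfPlane.im ∘ fun z : ℍ => x +ᵥ z) = UpperHalfPlane.im := by
    funext z
    simp
  rw [this]
  exact tendsto_comap

/-- If `G ∘ γ - G` is constant for `γ ∈ Γ` (finite index) and `G ∘ δ` has a limit at `i∞`, then
`G ∘ δ` is periodic with a positive integer period. -/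
theorem exists_period_of_cusp_limit (Γ : Subgroup SL(2, ℤ)) [Γ.FiniteIndex] (G : ℍ → ℂ)
    (hinv : ∀ γ ∈ Γ, ∃ c : ℂ, ∀ z : ℍ, G (γ • z) = G z + c)
    (hcusp : ∀ δ : SL(2, ℤ), ∃ L : ℂ, Tendsto (fun z : ℍ => G (δ • z)) atImInfty (𝓝 L))
    (δ : SL(2, ℤ)) :
    ∃ n : ℕ, 0 < n ∧ ∀ z : ℍ, G (δ • ((n : ℝ) +ᵥ z)) = G (δ • z) := by
  obtain ⟨n, hn, -, hmem⟩ := Subgroup.exists_pow_mem_of_index_ne_zero
    (Subgroup.FiniteIndex.index_ne_zero (H := Γ)) (δ * ModularGroup.T * δ⁻¹)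
  rw [conj_pow] at hmem
  obtain ⟨c, hc⟩ := hinv _ hmem
  obtain ⟨L, hL⟩ := hcusp δ
  have key : ∀ z : ℍ, G (δ • ((n : ℝ) +ᵥ z)) = G (δ • z) + c := by
    intro z
    have h1 := hc (δ • z)
    have h2 : (δ * ModularGroup.T ^ n * δ⁻¹) • (δ • z) = δ • ((n : ℝ) +ᵥ z) := by
      rw [← mul_smul, inv_mul_cancel_right, mul_smul]
      congr 1
      have := modular_T_zpow_smul z n
      simpa using this
    rw [h2] at h1
    exact h1
  have hL' : Tendsto (fun z : ℍ => G (δ • ((n : ℝ) +ᵥ z))) atImInfty (𝓝 L) :=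
    hL.comp (tendsto_vadd_atImInfty (n : ℝ))
  have hL'' : Tendsto (fun z : ℍ => G (δ • ((n : ℝ) +ᵥ z))) atImInfty (𝓝 (L + c)) := by
    have := hL.add_const c
    refine this.congr fun z => (key z).symm
  have hc0 : c = 0 := by
    have := tendsto_nhds_unique hL' hL''
    simpa using this.symm
  refine ⟨n, hn, fun z => ?_⟩
  rw [key z, hc0, add_zero]

theorem periodic_comp_ofComplex_of_vadd {g : ℍ → ℂ} {h : ℝ}
    (hg : ∀ z : ℍ, g (h +ᵥ z) = g z) : Periodic (g ∘ ofComplex) h := by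
  intro z
  by_cases hz : 0 < z.im
  · have hz' : 0 < (z + h).im := by simpa using hz
    simp only [comp_apply, ofComplex_apply_of_im_pos hz, ofComplex_apply_of_im_pos hz']
    rw [← hg ⟨z, hz⟩]
    congr 1
    ext
    simp [add_comm]
  · have hz' : (z + h).im ≤ 0 := by simpa using not_lt.mp hz
    simp only [comp_apply, ofComplex_apply_of_im_nonpos hz',
      ofComplex_apply_of_im_nonpos (not_lt.mp hz)]

/-- **Maximum principle on `Γ \ ℍ*`.** -/
theorem const_of_re_invariant (Γ : Subgroup SL(2, ℤ)) [Γ.FiniteIndex] (G : ℍ → ℂ)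
    (hG : MDiff G)
    (hinv : ∀ γ ∈ Γ, ∃ c : ℂ, c.re = 0 ∧ ∀ z : ℍ, G (γ • z) = G z + c)
    (hcusp : ∀ δ : SL(2, ℤ), ∃ L : ℂ, Tendsto (fun z : ℍ => G (δ • z)) atImInfty (𝓝 L)) :
    ∃ c : ℂ, ∀ z : ℍ, G z = c := by
  classical
  have hinv' : ∀ γ ∈ Γ, ∃ c : ℂ, ∀ z : ℍ, G (γ • z) = G z + c := fun γ hγ => by
    obtain ⟨c, -, hc⟩ := hinv γ hγ
    exact ⟨c, hc⟩
  choose n hn_pos hn_per using fun δ => exists_period_of_cusp_limit Γ G hinv' hcusp δ
  -- the cusp functions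
  set g : SL(2, ℤ) → ℍ → ℂ := fun δ z => G (δ • z) with hg
  have hgper : ∀ δ, Periodic (g δ ∘ ofComplex) (n δ) := fun δ =>
    periodic_comp_ofComplex_of_vadd (hn_per δ)
  have hnpos : ∀ δ, (0 : ℝ) < n δ := fun δ => by exact_mod_cast hn_pos δ
  have hgdiff : ∀ δ, MDiff (g δ) := fun δ => mdiff_comp_SL_smul hG δ
  have hgbdd : ∀ δ, IsBoundedAtImInfty (g δ) := fun δ => by
    obtain ⟨L, hL⟩ := hcusp δ
    exact hL.isBigO_one ℝ
  set c : SL(2, ℤ) → ℂ → ℂ := fun δ => cuspFunction (n δ) (g δ) with hc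
  have hcdiff : ∀ δ, DifferentiableOn ℂ (c δ) (ball 0 1) := fun δ =>
    differentiableOn_cuspFunction_ball (hnpos δ) (hgper δ) (hgdiff δ) (hgbdd δ)
  have hcval : ∀ δ (z : ℍ), c δ (Periodic.qParam (n δ) z) = G (δ • z) := fun δ z =>
    eq_cuspFunction z (hnpos δ).ne' (hgper δ)
  set E : SL(2, ℤ) → ℂ → ℂ := fun δ q => cexp (c δ q) with hE
  have hEdiff : ∀ δ, DifferentiableOn ℂ (E δ) (ball 0 1) := fun δ => (hcdiff δ).cexp
  set r : SL(2, ℤ) → ℝ := fun δ => Real.exp (-π / n δ) with hr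
  have hr0 : ∀ δ, 0 ≤ r δ := fun δ => (Real.exp_pos _).le
  have hr1 : ∀ δ, r δ < 1 := fun δ => by
    rw [hr]
    simp only
    rw [← Real.exp_zero, Real.exp_lt_exp]
    exact div_neg_of_neg_of_pos (neg_neg_of_pos Real.pi_pos) (hnpos δ)
  -- maxima on the closed discs
  have hmax : ∀ δ, ∃ q ∈ closedBall (0 : ℂ) (r δ), IsMaxOn (norm ∘ E δ) (closedBall 0 (r δ)) q :=
    fun δ => (isCompact_closedBall (0 : ℂ) (r δ)).exists_isMaxOn
      (nonempty_closedBall.mpr (hr0 δ))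
      (((hEdiff δ).continuousOn.mono (closedBall_subset_ball (hr1 δ))).norm)
  choose qmax hqmem hqmax using hmax
  obtain ⟨R, hR⟩ := exists_finset_reps Γ
  have hRne : R.Nonempty := by
    obtain ⟨γ, -, ρ, hρ, -⟩ := hR 1
    exact ⟨ρ, hρ⟩
  obtain ⟨ρ₀, hρ₀, hρ₀max⟩ := Finset.exists_max_image R (fun ρ => ‖E ρ (qmax ρ)‖) hRne
  -- the global bound
  have hbound : ∀ z : ℍ, ‖cexp (G z)‖ ≤ ‖E ρ₀ (qmax ρ₀)‖ := by
    intro z
    obtain ⟨σ, hσ⟩ := ModularGroup.exists_one_half_le_im_smul z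
    obtain ⟨γ, hγ, ρ, hρ, hσρ⟩ := hR σ⁻¹
    obtain ⟨κ, hκ, hGκ⟩ := hinv γ hγ
    have hz : z = γ • (ρ • (σ • z)) := by
      rw [← mul_smul, ← hσρ, inv_smul_smul]
    have h1 : G z = G (ρ • (σ • z)) + κ := by
      conv_lhs => rw [hz]
      exact hGκ _
    have h2 : ‖cexp (G z)‖ = ‖E ρ (Periodic.qParam (n ρ) (((σ • z : ℍ)) : ℂ))‖ := by
      rw [hE]
      simp only
      rw [hcval ρ (σ • z), Complex.norm_exp, Complex.norm_exp, h1, Complex.add_re, hκ, add_zero]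
    have h3 : Periodic.qParam (n ρ) (((σ • z : ℍ)) : ℂ) ∈ closedBall (0 : ℂ) (r ρ) := by
      rw [mem_closedBall_zero_iff, Periodic.norm_qParam, hr]
      simp only
      rw [Real.exp_le_exp]
      rw [div_le_div_iff_of_pos_right (hnpos ρ)]
      have : (1 : ℝ) / 2 ≤ (((σ • z : ℍ)) : ℂ).im := hσ
      nlinarith [Real.pi_pos]
    rw [h2]
    exact (hqmax ρ h3).trans (hρ₀max ρ hρ)
  -- apply the maximum modulus principle to `E ρ₀`
  have hconst : Set.EqOn (E ρ₀) (Function.const ℂ (E ρ₀ 0)) (ball 0 1) := by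
    refine Complex.eq_const_of_exists_le (hEdiff ρ₀) (hr0 ρ₀) (hr1 ρ₀) fun q hq => ?_
    rcases eq_or_ne q 0 with rfl | hq0
    · exact ⟨0, mem_closedBall_self (hr0 ρ₀), le_rfl⟩
    · refine ⟨qmax ρ₀, hqmem ρ₀, ?_⟩
      have hqn : ‖q‖ < 1 := mem_ball_zero_iff.mp hq
      have him := Periodic.im_invQParam_pos_of_norm_lt_one (hnpos ρ₀) hqn hq0
      set τ : ℍ := ⟨Periodic.invQParam (n ρ₀) q, him⟩ with hτ
      have hqτ : Periodic.qParam (n ρ₀) (τ : ℂ) = q :=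
        Periodic.qParam_right_inv (hnpos ρ₀).ne' hq0
      have : E ρ₀ q = cexp (G (ρ₀ • τ)) := by
        rw [hE]
        simp only
        rw [← hcval ρ₀ τ, hqτ]
      rw [this]
      exact hbound _
  -- hence `exp ∘ G` is constant
  have hexp : ∀ z : ℍ, cexp (G z) = E ρ₀ 0 := by
    intro z
    have h1 : Periodic.qParam (n ρ₀) (((ρ₀⁻¹ • z : ℍ)) : ℂ) ∈ ball (0 : ℂ) 1 := by
      rw [mem_ball_zero_iff]
      exact Periodic.norm_qParam_lt_one (hnpos ρ₀) (ρ₀⁻¹ • z).im_pos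
    have h2 := hconst h1
    rw [hE] at h2
    simp only [Function.const_apply] at h2
    rw [hcval ρ₀ (ρ₀⁻¹ • z), smul_inv_smul] at h2
    rw [h2]
  -- hence `G` has zero derivative
  have hprim : IsPrim G 0 := by
    intro τ
    have hd : DifferentiableAt ℂ (G ∘ ofComplex) (τ : ℂ) :=
      ((UpperHalfPlane.mdifferentiable_iff.mp hG) τ τ.im_pos).differentiableAt
        (isOpen_upperHalfPlaneSet.mem_nhds τ.im_pos)
    have h1 : HasDerivAt (fun w : ℂ => cexp ((G ∘ ofComplex) w))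
        (cexp ((G ∘ ofComplex) τ) * deriv (G ∘ ofComplex) τ) (τ : ℂ) := hd.hasDerivAt.cexp
    have h2 : HasDerivAt (fun w : ℂ => cexp ((G ∘ ofComplex) w)) 0 (τ : ℂ) := by
      have h3 : HasDerivAt (fun _ : ℂ => E ρ₀ 0) 0 (τ : ℂ) := hasDerivAt_const _ _
      refine h3.congr_of_eventuallyEq ?_
      filter_upwards [isOpen_upperHalfPlaneSet.mem_nhds τ.im_pos] with w hw
      simp only [comp_apply]
      exact hexp _
    have h4 := h1.unique h2
    have h5 : deriv (G ∘ ofComplex) τ = 0 := by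
      rcases mul_eq_zero.mp h4 with h | h
      · exact absurd h (Complex.exp_ne_zero _)
      · exact h
    have := hd.hasDerivAt
    rw [h5] at this
    exact this
  exact ⟨G UpperHalfPlane.I, fun z => hprim.eq_of_zero z _⟩

end Fermat.Agent.H20
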